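import Mathlib
import Fermat.Prelude.Def_GaloisRep_Residual

set_option autoImplicit false

namespace Fermat.Agent.S53_helper59

open Module TensorProduct

/-- Burnside's theorem over an algebraically closed field: a subalgebra of `End K V` acting
irreducibly on a finite-dimensional space is everything. -/
theorem burnside_algClosed {K V : Type*} [Field K] [IsAlgClosed K] [AddCommGroup V] [Module K V]
    [FiniteDimensional K V] [Nontrivial V] (S : Subalgebra K (Module.End K V))
    (hirr : ∀ W : Submodule K V, (∀ s ∈ S, ∀ x ∈ W, (s : Module.End K V) x ∈ W) →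
      W = ⊥ ∨ W = ⊤) :
    S = ⊤ := by
  have : IsSimpleModule S V := by
    rw [isSimpleModule_iff]
    refine { exists_pair_ne := ⟨⊥, ⊤, bot_ne_top⟩, eq_bot_or_eq_top := ?_ }
    intro W
    have h := hirr (W.restrictScalars K) (fun s hs x hx => W.smul_mem ⟨s, hs⟩ hx)
    rcases h with h | h
    · left
      exact (Submodule.restrictScalars_eq_bot_iff _ _ _).1 h
    · right
      exact (Submodule.restrictScalars_eq_top_iff _ _ _).1 h
  have hschur : Function.Bijective (algebraMap K (Module.End S V)) :=
    IsSimpleModule.algebraMap_end_bijective_of_isAlgClosed K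
  have : Module.Finite (Module.End S V) V := Module.Finite.of_restrictScalars_finite K _ _
  have hdens := Module.Finite.toModuleEnd_moduleEnd_surjective (R := S) (M := V)
  rw [eq_top_iff]
  intro f _
  let f' : Module.End (Module.End S V) V :=
    { toFun := f
      map_add' := f.map_add
      map_smul' := by
        intro φ v
        obtain ⟨c, rfl⟩ := hschur.2 φ
        simp only [RingHom.id_apply]
        show f ((algebraMap K (Module.End S V) c) v) = (algebraMap K (Module.End S V) c) (f v)
        simp [Module.algebraMap_end_apply] }
  obtain ⟨s, hs⟩ := hdens f'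
  have : (s : Module.End K V) = f := by
    ext v
    have := congrArg (fun g : Module.End (Module.End S V) V => g v) hs
    exact this
  rw [← this]
  exact s.2

/-- Descent of spanning along a field extension: if the base-changed operators span over `K`,
the original operators span over `k`. -/
theorem span_eq_top_of_span_baseChange_eq_top {k K V : Type*} [Field k] [Field K] [Algebra k K]
    [AddCommGroup V] [Module k V] [FiniteDimensional k V]
    (X : Set (Module.End k V))
    (h : Submodule.span K ((fun T : Module.End k V => LinearMap.baseChange K T) '' X) = ⊤) :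
    Submodule.span k X = ⊤ := by
  classical
  obtain ⟨f, hfX, hfspan, -⟩ := Submodule.exists_fun_fin_finrank_span_eq k X
  let β : Module.End k V →ₗ[k] Module.End K (K ⊗[k] V) := LinearMap.baseChangeHom k K V V
  have hle : Submodule.span K ((fun T : Module.End k V => LinearMap.baseChange K T) '' X) ≤
      Submodule.span K (Set.range (fun i => β (f i))) := by
    rw [Submodule.span_le]
    rintro _ ⟨T, hT, rfl⟩
    have hT' : T ∈ Submodule.span k (Set.range f) := by
      rw [hfspan]; exact Submodule.subset_span hT
    have : β T ∈ Submodule.map β (Submodule.span k (Set.range f)) := ⟨T, hT', rfl⟩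
    rw [Submodule.map_span] at this
    have h2 := Submodule.span_le_restrictScalars k K (β '' Set.range f) this
    have h3 : β '' Set.range f = Set.range (fun i => β (f i)) := by
      ext x; constructor
      · rintro ⟨_, ⟨i, rfl⟩, rfl⟩; exact ⟨i, rfl⟩
      · rintro ⟨i, rfl⟩; exact ⟨_, ⟨i, rfl⟩, rfl⟩
    rw [h3] at h2
    exact h2
  rw [h, top_le_iff] at hle
  have h1 : finrank K (Module.End K (K ⊗[k] V)) ≤ finrank k (Submodule.span k X) := by
    have := finrank_range_le_card (R := K) (fun i => β (f i))
    rw [Set.finrank, hle, finrank_top, Fintype.card_fin] at this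
    exact this
  have h2 : finrank K (Module.End K (K ⊗[k] V)) = finrank k (Module.End k V) := by
    rw [Module.finrank_linearMap, Module.finrank_linearMap, Module.finrank_baseChange]
  apply Submodule.eq_top_of_finrank_eq
  have h3 := Submodule.finrank_le (Submodule.span k X)
  omega

/-- Burnside for a monoid representation that is irreducible after base change to an
algebraically closed extension: the operators span `End k V` over `k`. -/
theorem span_range_eq_top_of_absIrr {k K V G : Type*} [Field k] [Field K] [IsAlgClosed K]
    [Algebra k K] [AddCommGroup V] [Module k V] [FiniteDimensional k V] [Nontrivial V] [Monoid G]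
    (ρ : G →* Module.End k V)
    (hirr : ∀ W : Submodule K (K ⊗[k] V),
      (∀ g, ∀ x ∈ W, (ρ g).baseChange K x ∈ W) → W = ⊥ ∨ W = ⊤) :
    Submodule.span k (Set.range ρ) = ⊤ := by
  apply span_eq_top_of_span_baseChange_eq_top (K := K)
  let ρ' : G →* Module.End K (K ⊗[k] V) :=
    { toFun := fun g => (ρ g).baseChange K
      map_one' := by rw [map_one, LinearMap.baseChange_one]
      map_mul' := fun a b => by rw [map_mul, LinearMap.baseChange_mul] }
  have hset : (fun T : Module.End k V => LinearMap.baseChange K T) '' Set.range ρ =
      (MonoidHom.mrange ρ' : Set _) := by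
    ext x; constructor
    · rintro ⟨_, ⟨g, rfl⟩, rfl⟩; exact ⟨g, rfl⟩
    · rintro ⟨g, rfl⟩; exact ⟨_, ⟨g, rfl⟩, rfl⟩
  rw [hset]
  have hS : Algebra.adjoin K (MonoidHom.mrange ρ' : Set (Module.End K (K ⊗[k] V))) = ⊤ := by
    apply burnside_algClosed
    intro W hW
    apply hirr W
    intro g x hx
    exact hW _ (Algebra.subset_adjoin ⟨g, rfl⟩) x hx
  have := Algebra.adjoin_eq_span K (MonoidHom.mrange ρ' : Set (Module.End K (K ⊗[k] V)))
  rw [hS, Submonoid.closure_eq] at this
  rw [← this]
  simp

/-- Wrapper on the prelude structure: an absolutely irreducible residual representation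
has operators spanning `End k V`. -/
theorem span_range_eq_top_of_isAbsolutelyIrreducible {k : Type} [Field k]
    (ρbar : ResidualGaloisRep k) (h : ρbar.IsAbsolutelyIrreducible) :
    Submodule.span k (Set.range ρbar.ρ) = ⊤ := by
  have : Nontrivial ρbar.V := by
    apply Module.nontrivial_of_finrank_pos (R := k)
    rw [ρbar.finrank_eq]; norm_num
  exact span_range_eq_top_of_absIrr (K := AlgebraicClosure k) ρbar.ρ (fun W hW => h W hW)

end Fermat.Agent.S53_helper59
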